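import Fermat.Agent.S27.Val
import Fermat.Agent.S27.LSpace.IsFF1
import Fermat.Prelude.Def_AlgebraicCurve_BaseChangeGalois

/-!
# S17: Galois action on places (ROUTE INDEPENDENT)   [WP F-GAL]

`F/ℚ̄` a function field with a semilinear action `ρ` of `G_ℚ` fixing a non constant function `j`.
(Same statements as `S17.Est.val_smul`, `S17.Est.finite_orbit` of route VT; this file only imports S27 + Prelude, so either can be deduced from the other.)

The general statements (any semilinear automorphism, orbits of functions) are in the namespace `Fermat.Agent.MW.GalAux`.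
-/

set_option autoImplicit false

namespace Fermat.Agent.MW

open AlgebraicCurve

namespace GalAux

section general

variable {K F : Type*} [Field K] [Field F] [Algebra K F]

theorem adic_smul (g : SemilinearAut K F) (P : Place K F) (f : F) :
    (g • P).adicValuation (g • f) = P.adicValuation f := by
  rcases eq_or_ne f 0 with rfl | hf
  · simp
  · have hgf : g • f ≠ 0 := by simpa using hf
    rw [(g • P).adicValuation_eq_exp_neg_ord hgf, P.adicValuation_eq_exp_neg_ord hf,
      SemilinearAut.ord_smul]

/-- evaluation is equivariant for any semilinear automorphism. -/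
theorem val_smul_gen [IsAlgClosed K] [CharZero K] [S27.IsFF K F] (g : SemilinearAut K F)
    (P : Place K F) (f : F) :
    S27.val (g • P) (g • f) = SemilinearAut.baseAut g (S27.val P f) := by
  by_cases hf : P.adicValuation f ≤ 1
  · apply S27.val_unique
    have h := S27.val_spec P hf
    rw [← adic_smul g, smul_sub, SemilinearAut.smul_algebraMap] at h
    exact h
  · rw [S27.val_of_pole P hf, S27.val_of_pole (g • P) (by rwa [adic_smul]), map_zero]

/-- a non constant function takes each value finitely often, and has finitely many poles. -/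
theorem finite_fibre_gen [IsAlgClosed K] [CharZero K] [S27.IsFF K F] {j : F}
    (hj : j ∉ Set.range (algebraMap K F)) (c : K) : {P : Place K F | S27.val P j = c}.Finite := by
  have h0 : j - algebraMap K F c ≠ 0 := fun h => hj ⟨c, (sub_eq_zero.1 h).symm⟩
  refine ((S27.finite_zeros (K := K) h0).union (S27.finite_poles (K := K) j)).subset ?_
  intro P hP
  by_cases hf : P.adicValuation j ≤ 1
  · left
    have h := S27.val_spec P hf
    rw [show S27.val P j = c from hP] at h
    exact h
  · right
    exact hf

end general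

/-- the conjugates of an algebraic number. -/
theorem finite_conj (z : AlgebraicClosure ℚ) :
    (Set.range fun σ : AlgebraicClosure ℚ ≃ₐ[ℚ] AlgebraicClosure ℚ => σ z).Finite := by
  have hz : IsIntegral ℚ z := (AlgebraicClosure.isAlgebraic ℚ).isIntegral.isIntegral z
  refine ((minpoly ℚ z).rootSet_finite (AlgebraicClosure ℚ)).subset ?_
  rintro _ ⟨σ, rfl⟩
  refine Polynomial.mem_rootSet.2 ⟨minpoly.ne_zero hz, ?_⟩
  show Polynomial.aeval (σ z) (minpoly ℚ z) = 0
  have := Polynomial.aeval_algHom_apply (σ : AlgebraicClosure ℚ →ₐ[ℚ] AlgebraicClosure ℚ) z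
    (minpoly ℚ z)
  rw [minpoly.aeval, map_zero] at this
  exact this

/-- the degree is the number of conjugates. -/
theorem natDegree_minpoly_eq (z : AlgebraicClosure ℚ) :
    (minpoly ℚ z).natDegree =
      (Set.range fun σ : AlgebraicClosure ℚ ≃ₐ[ℚ] AlgebraicClosure ℚ => σ z).ncard := by
  have hz : IsIntegral ℚ z := (AlgebraicClosure.isAlgebraic ℚ).isIntegral.isIntegral z
  have hn : Normal ℚ (AlgebraicClosure ℚ) :=
    have : Algebra.IsAlgebraic ℚ (AlgebraicClosure ℚ) := AlgebraicClosure.isAlgebraic ℚ
    have : IsAlgClosure ℚ (AlgebraicClosure ℚ) := ⟨inferInstance, inferInstance⟩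
    IsAlgClosure.normal ℚ (AlgebraicClosure ℚ)
  have h1 : (Set.range fun σ : AlgebraicClosure ℚ ≃ₐ[ℚ] AlgebraicClosure ℚ => σ z) =
      (minpoly ℚ z).rootSet (AlgebraicClosure ℚ) := by
    apply Set.Subset.antisymm
    · rintro _ ⟨σ, rfl⟩
      refine Polynomial.mem_rootSet.2 ⟨minpoly.ne_zero hz, ?_⟩
      show Polynomial.aeval (σ z) (minpoly ℚ z) = 0
      have := Polynomial.aeval_algHom_apply (σ : AlgebraicClosure ℚ →ₐ[ℚ] AlgebraicClosure ℚ) z
        (minpoly ℚ z)
      rw [minpoly.aeval, map_zero] at this
      exact this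
    · intro y hy
      obtain ⟨σ, hσ⟩ := minpoly.exists_algEquiv_of_root' hz.isAlgebraic
        (Polynomial.mem_rootSet.1 hy).2
      exact ⟨σ, hσ⟩
  rw [h1, ← Polynomial.card_rootSet_eq_natDegree (K := AlgebraicClosure ℚ)
    (minpoly.irreducible hz).separable (IsAlgClosed.splits _), Set.ncard_eq_toFinset_card',
    Set.toFinset_card]

end GalAux

variable {F : Type*} [Field F] [Algebra (AlgebraicClosure ℚ) F] [S27.IsFF (AlgebraicClosure ℚ) F]
  (ρ : (AlgebraicClosure ℚ ≃ₐ[ℚ] AlgebraicClosure ℚ) →* SemilinearAut (AlgebraicClosure ℚ) F)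
  (hρ : ∀ σ, SemilinearAut.baseAut (ρ σ) = σ.toRingEquiv)

include hρ in
/-- evaluation is Galois equivariant.  (If `f` is regular at `P`: `f - val_P f` vanishes at `P`, so `σ f - σ (val_P f)` vanishes at `σ P`
(`SemilinearAut.ord_smul`, `smul_algebraMap`); if `f` has a pole at `P` both sides are the junk value `0`.) -/
theorem val_smul (σ : AlgebraicClosure ℚ ≃ₐ[ℚ] AlgebraicClosure ℚ) (P : Place (AlgebraicClosure ℚ) F) (f : F) :
    S27.val (ρ σ • P) (ρ σ • f) = σ (S27.val P f) := by
  rw [GalAux.val_smul_gen, hρ]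
  rfl

/-- a non constant function takes each value finitely often, and has finitely many poles. -/
theorem finite_fibre {j : F} (hj : j ∉ Set.range (algebraMap (AlgebraicClosure ℚ) F)) (c : AlgebraicClosure ℚ) :
    {P : Place (AlgebraicClosure ℚ) F | S27.val P j = c}.Finite :=
  GalAux.finite_fibre_gen hj c

include hρ in
/-- Galois orbits of places are finite.  (`j(σ P) = σ (j(P))` has finitely many values (conjugates of `j(P)`), and `j` has finite fibres:
`val_smul`, `finite_fibre`.) -/
theorem finite_orbit {j : F} (hj : j ∉ Set.range (algebraMap (AlgebraicClosure ℚ) F)) (hjρ : ∀ σ, ρ σ • j = j)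
    (P : Place (AlgebraicClosure ℚ) F) : (Set.range fun σ => ρ σ • P).Finite := by
  refine ((GalAux.finite_conj (S27.val P j)).preimage' (f := fun Q : Place (AlgebraicClosure ℚ) F => S27.val Q j)
    (fun c _ => finite_fibre hj c)).subset ?_
  rintro _ ⟨σ, rfl⟩
  refine ⟨σ, ?_⟩
  have h := val_smul ρ hρ σ P j
  rw [hjρ] at h
  exact h.symm

include hρ in
/-- the degree of `j(P)` is at most the size of the orbit of `P`.  (The conjugates of `j(P)` are the `σ (j(P)) = j(σ P)`; the number of
conjugates of `α ∈ ℚ̄` is `(minpoly ℚ α).natDegree`: separable, splits, `G_ℚ` is transitive on the roots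
(`IsAlgClosure`/`Normal` : `minpoly.exists_algEquiv_of_root` or `Algebra.IsAlgebraic…`/`IsGalois`).) -/
theorem natDegree_minpoly_val_le {j : F} (hjρ : ∀ σ, ρ σ • j = j) (P : Place (AlgebraicClosure ℚ) F)
    (hfin : (Set.range fun σ => ρ σ • P).Finite) :
    (minpoly ℚ (S27.val P j)).natDegree ≤ (Set.range fun σ => ρ σ • P).ncard := by
  rw [GalAux.natDegree_minpoly_eq]
  have h1 : (Set.range fun σ : AlgebraicClosure ℚ ≃ₐ[ℚ] AlgebraicClosure ℚ => σ (S27.val P j)) =
      (fun Q : Place (AlgebraicClosure ℚ) F => S27.val Q j) '' (Set.range fun σ => ρ σ • P) := by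
    rw [← Set.range_comp]
    congr 1
    funext σ
    have h := val_smul ρ hρ σ P j
    rw [hjρ] at h
    exact h.symm
  rw [h1]
  exact Set.ncard_image_le hfin

end Fermat.Agent.MW
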