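import Fermat.Agent.S17.Apps.QB
import Fermat.Agent.S17.Apps.Vdm

/-!
# S17 route F: the estimates of the Northcott inequality   [WP F-N3]

`jj = 2a - g` points `Y` with `D + ∑ Y = Z(s)`, `s ∈ V 2`, `D ≥ 0` non special of degree `g`.
-/

set_option autoImplicit false

namespace Fermat.Agent.MW

open AlgebraicCurve

variable {F : Type*} [Field F] [Algebra Qb F] [S27.IsFF Qb F]

namespace Setup

variable (S : Setup F)

/-- the number of points of `Y` -/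
noncomputable def jj : ℕ := 2 * S.a - genusFF Qb F

/-- [F-N3] `I(Y,Y) ≤ 6 h_1(Y) - htau(Y) - (2/a)(h_1(Y) + h_1(D)) + C`.
Proof: `l(2A - ∑Y) = l(D) = 1` and `n 2 = jj + 1` ⟹ `wdg 2 Y ≠ 0` (`wdg_ne_zero_of_finrank`), `habs (wdg 2 Y) = habs c` (`habs_wdg_eq`);
`E2 2 jj`; `hD_self`; `hdiv_Z` (`r = 2`): `hdiv D + ∑ h_1(Y_i) = a habs c + O(1)`.
(`l(2A - ∑Y) = l(D)`: multiplication by `sec 2 c` is an isomorphism `L(D) ≃ L(2A - ∑Y)`, as `div (sec 2 c) = D + ∑Y - 2A`;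
`n 2 = 2a - g + 1` by Riemann-Roch, `finrank_L_eq`.) -/
theorem N3 : ∃ C : ℝ, ∀ (D : Divisor Qb F) (Y : Fin S.jj → Place Qb F) (c : Fin (S.n 2) → Qb),
    0 ≤ D → Module.finrank Qb (riemannRochSpace D) = 1 → Function.Injective Y → c ≠ 0 →
    S.Z 2 (S.sec 2 c) = D + S27.sumDiv Y →
    S.I (S27.sumDiv Y) (S27.sumDiv Y) ≤
      6 * ∑ i, S.h 1 (Y i) - ∑ i, S.htau (Y i) - 2 / S.a * (∑ i, S.h 1 (Y i) + S.hdiv D) + C := by
  sorry

end Setup

end Fermat.Agent.MW
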