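import Fermat.Agent.S17.North.Quad
import Fermat.Agent.S17.North.N3
import Fermat.Agent.S17.Apps.Tau
import Fermat.Agent.S17.Curve.RRBertini

/-!
# S17 route F: the key inequality for non special divisors   [WP F-HALF]

`E ≥ 0` of degree `g` FIXED.  There are a class `η` and a constant `C` such that for all non special `D ≥ 0` of degree `g`, `x = [D - E]`:
      `q (x + η) + 4 hdiv D - C ≤ (2a + 1) q x`.

Proof (all `O(1)` uniform in `D`).  FIXED data: `γ ≠ 0` with `Z 2 (sec 2 γ) = E + G`, `G ≥ 0` (`L(2A - E) ≠ 0`); any `γ₁ ≠ 0`, `A₁ := Z 1 (sec 1 γ₁)`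
(degree `a`); `Ξ` from `exists_Xi`; `Ξ' := 2g • A₁ - 2a • E + Ξ` (degree `0`), `η := dcl Ξ'`.
Given `D`: `exists_reduced_member` for `2A - D` (degree `2a - g ≥ 2g`) gives `s = sec 2 c ≠ 0` with `Z 2 s - D` reduced, `= sumDiv Y`, `Y : Fin jj → Place`
injective (`exists_Y` below).  Put `Z₊ := G - ∑Y`, `hY := ∑ h_1(Y_i)`, `tY := ∑ htau(Y_i)`.
1. `D - E - Z₊ = div s - div (sec 2 γ)`, so `dcl Z₊ = x`; `dnorm Z₊ ≤ 2 jj`.  `IsQ`: `q x = - I(Z₊,Z₊) + O(1)`.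
2. `I(Z₊,Z₊) = I(G,G) - 2 I(G,∑Y) + I(∑Y,∑Y)`, `I(G,∑Y) = I(Z 2 γ,∑Y) - I(E,∑Y) = jj habs γ + 2 hY - I(E,∑Y) + O(1)` (`F_formula_div 2 jj`).
   So `q x = 4 hY - 2 I(E,∑Y) - I(∑Y,∑Y) + O(1)`.
3. `N3`: `q x ≥ - 2 hY - 2 I(E,∑Y) + tY + (2/a)(hY + hdiv D) - C`.
4. `exists_Xi` summed over `Y`: `a tY = (2a + 2g - 2) hY + I(Ξ,∑Y) + O(1)`.  So `a q x ≥ 2g hY - 2a I(E,∑Y) + I(Ξ,∑Y) + 2 hdiv D - C`.
5. `F_formula_div 1 jj` for `γ₁`: `hY = I(A₁,∑Y) + O(1)`.  So `a q x ≥ I(Ξ',∑Y) + 2 hdiv D - C = - I(Ξ',Z₊) + 2 hdiv D - C'` (`I(Ξ',G)` is a constant).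
6. `IsQ` for `Z₊ + Ξ'` (size `≤ 2 jj + dnorm Ξ'`): `q (x + η) = - I(Z₊,Z₊) - 2 I(Ξ',Z₊) - I(Ξ',Ξ') + O(1) = q x - 2 I(Ξ',Z₊) + O(1)`.
7. `2a q x ≥ q (x + η) - q x + 4 hdiv D - C`.
-/

set_option autoImplicit false
set_option linter.unusedSectionVars false

namespace Fermat.Agent.MW

open AlgebraicCurve

variable {F : Type*} [Field F] [Algebra Qb F] [S27.IsFF Qb F]

namespace Setup

variable (S : Setup F)

/-! ### auxiliary lemmas on `dnorm` and `I` -/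

private theorem dn_eq_sum (D : Divisor Qb F) (s : Finset (Place Qb F)) (hs : D.support ⊆ s) :
    dnorm D = ∑ P ∈ s, (D P).natAbs := by
  unfold dnorm
  exact Finsupp.sum_of_support_subset D hs _ (fun _ _ => by simp)

private theorem dn_add_le (D E : Divisor Qb F) : dnorm (D + E) ≤ dnorm D + dnorm E := by
  classical
  set s := D.support ∪ E.support with hs
  have h1 : (D + E).support ⊆ s := Finsupp.support_add
  rw [dn_eq_sum (D + E) s h1, dn_eq_sum D s Finset.subset_union_left,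
    dn_eq_sum E s Finset.subset_union_right, ← Finset.sum_add_distrib]
  refine Finset.sum_le_sum fun P _ => ?_
  rw [Finsupp.add_apply]
  exact Int.natAbs_add_le _ _

private theorem dn_neg (D : Divisor Qb F) : dnorm (-D) = dnorm D := by
  rw [dn_eq_sum (-D) D.support (by rw [Finsupp.support_neg]), dn_eq_sum D D.support subset_rfl]
  refine Finset.sum_congr rfl fun P _ => ?_
  rw [Finsupp.neg_apply, Int.natAbs_neg]

private theorem dn_sub_le (D E : Divisor Qb F) : dnorm (D - E) ≤ dnorm D + dnorm E := by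
  rw [sub_eq_add_neg, ← dn_neg E]
  exact dn_add_le D (-E)

private theorem dn_sumDiv_le {J : Type*} [Fintype J] (Y : J → Place Qb F) :
    dnorm (S27.sumDiv Y) ≤ Fintype.card J := by
  classical
  have key : ∀ s : Finset J, dnorm (∑ j ∈ s, (Finsupp.single (Y j) 1 : Divisor Qb F)) ≤ s.card := by
    intro s
    induction s using Finset.induction_on with
    | empty => simp [dnorm]
    | insert a s ha ih =>
      rw [Finset.sum_insert ha, Finset.card_insert_of_notMem ha]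
      refine (dn_add_le _ _).trans ?_
      have h1 : dnorm (Finsupp.single (Y a) 1 : Divisor Qb F) = 1 := by
        unfold dnorm
        rw [Finsupp.sum_single_index] <;> simp
      omega
  exact key Finset.univ

private theorem I_nsmul_l (n : ℕ) (D E : Divisor Qb F) : S.I (n • D) E = n * S.I D E := by
  induction n with
  | zero => simp [I_zero_left]
  | succ n ih =>
    rw [succ_nsmul, I_add_left, ih]
    push_cast
    ring

private theorem I_sumDiv_r {J : Type*} [Fintype J] (D : Divisor Qb F) (Y : J → Place Qb F) :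
    S.I D (S27.sumDiv Y) = ∑ j, S.I D (Finsupp.single (Y j) 1) := by
  rw [I_comm, I_sumDiv_left]
  exact Finset.sum_congr rfl fun j _ => S.I_comm _ _

/-- the auxiliary points `Y`. -/
theorem exists_Y {D : Divisor Qb F} (hD : 0 ≤ D) (hdeg : Divisor.degree D = genusFF Qb F) :
    ∃ (Y : Fin S.jj → Place Qb F) (c : Fin (S.n 2) → Qb), Function.Injective Y ∧ c ≠ 0 ∧
      S.Z 2 (S.sec 2 c) = D + S27.sumDiv Y := by
  classical
  have hha := S.ha
  have hdegA : Divisor.degree (2 • S.A - D) = 2 * (S.a : ℤ) - genusFF Qb F := by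
    rw [map_sub, map_nsmul, S.degree_A, hdeg]
    simp
  obtain ⟨f, hfL, hf0, hred, -⟩ :=
    exists_reduced_member (D := 2 • S.A - D) (by rw [hdegA]; omega) ∅
  have hfV : f ∈ S.V 2 := S27.L_mono (sub_le_self _ hD) hfL
  set R : Divisor Qb F := S27.divOf (K := Qb) f + (2 • S.A - D) with hR
  have hR0 : 0 ≤ R := by
    have := S27.effective_of_mem_L hf0 hfL
    rwa [add_comm] at this
  have hRdeg : Divisor.degree R = (S.jj : ℕ) := by
    rw [hR, map_add, S27.degree_divOf hf0, hdegA, zero_add]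
    unfold jj
    omega
  obtain ⟨Y, hY⟩ := exists_eq_sumDiv' hR0 hRdeg
  refine ⟨Y, S.coord 2 f, ?_, ?_, ?_⟩
  · intro i j hij
    by_contra hne
    have h1 : R (Y i) ≤ 1 := hred (Y i)
    rw [hY, S27.NS.sumDiv_apply] at h1
    have h2 : ∑ k ∈ ({i, j} : Finset (Fin S.jj)), (Finsupp.single (Y k) (1 : ℤ)) (Y i) ≤
        ∑ k, (Finsupp.single (Y k) (1 : ℤ)) (Y i) := by
      refine Finset.sum_le_sum_of_subset_of_nonneg (Finset.subset_univ _) fun k _ _ => ?_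
      exact (Finsupp.single_nonneg.2 zero_le_one :
        (0 : Place Qb F →₀ ℤ) ≤ Finsupp.single (Y k) (1 : ℤ)) (Y i)
    rw [Finset.sum_pair hne, ← hij, Finsupp.single_eq_same] at h2
    omega
  · intro h
    have h1 := S.sec_coord hfV
    rw [h, S.sec_eq_zero_iff.2 rfl] at h1
    exact hf0 h1.symm
  · rw [S.sec_coord hfV, ← hY, hR]
    unfold Z
    abel

theorem half {q : Pic0 Qb F → ℝ} (hq : S.IsQ q) {E : Divisor Qb F} (hE : 0 ≤ E)
    (hdeg : Divisor.degree E = genusFF Qb F) :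
    ∃ (η : Pic0 Qb F) (C : ℝ), ∀ D : Divisor Qb F, 0 ≤ D → Divisor.degree D = genusFF Qb F →
      Module.finrank Qb (riemannRochSpace D) = 1 →
      q (S27.dcl (D - E) + η) + 4 * S.hdiv D - C ≤ (2 * S.a + 1) * q (S27.dcl (D - E)) := by
  classical
  have hha := S.ha
  -- FIXED data
  obtain ⟨YE, γ, -, hγ0, hγ⟩ := S.exists_Y hE hdeg
  obtain ⟨G, hG⟩ : ∃ G : Divisor Qb F, G = S27.sumDiv YE := ⟨_, rfl⟩
  rw [← hG] at hγ
  have hn1 : 0 < S.n 1 := by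
    have h1 := S.n_eq (m := 1) le_rfl
    push_cast at h1
    omega
  set γ₁ : Fin (S.n 1) → Qb := fun _ => 1 with hγ₁
  have hγ₁0 : γ₁ ≠ 0 := by
    intro h
    have h1 := congrFun h ⟨0, hn1⟩
    simp [hγ₁] at h1
  obtain ⟨A₁, hA₁⟩ : ∃ A₁ : Divisor Qb F, A₁ = S.Z 1 (S.sec 1 γ₁) := ⟨_, rfl⟩
  have hA₁deg : Divisor.degree A₁ = S.a := by
    rw [hA₁, S.degree_Z 1 (fun h => hγ₁0 (S.sec_eq_zero_iff.1 h))]
    simp
  obtain ⟨Ξ, hΞdeg, CΞ, hΞ⟩ := S.exists_Xi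
  obtain ⟨Ξ', hΞ'⟩ : ∃ Ξ' : Divisor Qb F, Ξ' = (2 * genusFF Qb F) • A₁ - (2 * S.a) • E + Ξ :=
    ⟨_, rfl⟩
  have hΞ'deg : Divisor.degree Ξ' = 0 := by
    rw [hΞ', map_add, map_sub, map_nsmul, map_nsmul, hA₁deg, hdeg, hΞdeg]
    simp only [nsmul_eq_mul]
    push_cast
    ring
  obtain ⟨C1, hC1⟩ := hq (2 * S.jj)
  obtain ⟨C6, hC6⟩ := hq (2 * S.jj + dnorm Ξ')
  obtain ⟨C2, hC2⟩ := S.F_formula_div 2 S.jj
  obtain ⟨C5, hC5⟩ := S.F_formula_div 1 S.jj
  obtain ⟨C3, hC3⟩ := S.N3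
  have hGdeg : Divisor.degree G = S.jj := by rw [hG, S27.degree_sumDiv]; simp
  have hGdn : dnorm G ≤ S.jj := by
    have := dn_sumDiv_le YE
    rw [hG]
    simpa using this
  refine ⟨S27.dcl Ξ', -(2 * ((-(S.a * C1) - S.a * S.I G G + 2 * S.a * (S.jj * habs γ) - 2 * S.a * C2
      - S.jj * CΞ - S.a * C3) - 2 * genusFF Qb F * (S.jj * habs γ₁ + C5)) + 2 * S.I Ξ' G - C1 - C6
      + S.I Ξ' Ξ'), fun D hD hDdeg hDl => ?_⟩
  obtain ⟨Y, c, hYinj, hc0, hY⟩ := S.exists_Y hD hDdeg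
  obtain ⟨sY, hsY⟩ : ∃ sY : Divisor Qb F, sY = S27.sumDiv Y := ⟨_, rfl⟩
  rw [← hsY] at hY
  have hsYdeg : Divisor.degree sY = S.jj := by rw [hsY, S27.degree_sumDiv]; simp
  have hsYdn : dnorm sY ≤ S.jj := by
    have := dn_sumDiv_le Y
    rw [hsY]
    simpa using this
  obtain ⟨Zp, hZp⟩ : ∃ Zp : Divisor Qb F, Zp = G - sY := ⟨_, rfl⟩
  have hZpdeg : Divisor.degree Zp = 0 := by rw [hZp, map_sub, hGdeg, hsYdeg, sub_self]
  have hZpdn : dnorm Zp ≤ 2 * S.jj := by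
    have := dn_sub_le G sY
    rw [← hZp] at this
    omega
  have hDEdeg : Divisor.degree (D - E) = 0 := by rw [map_sub, hDdeg, hdeg, sub_self]
  -- 1. the class
  have hx : S27.dcl (D - E) = S27.dcl Zp := by
    rw [← sub_eq_zero, ← S27.dcl_sub hDEdeg hZpdeg, S27.dcl_eq_zero_iff (by
      rw [map_sub, hDEdeg, hZpdeg, sub_self])]
    have h1 : D - E - Zp = S27.divOf (K := Qb) (S.sec 2 c) - S27.divOf (K := Qb) (S.sec 2 γ) := by
      have e1 : D - E - Zp = (D + sY) - (E + G) := by rw [hZp]; abel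
      rw [e1, ← hY, ← hγ]
      unfold Z
      abel
    rw [h1]
    exact sub_mem (S27.mem_principal_iff.2 ⟨_, fun h => hc0 (S.sec_eq_zero_iff.1 h), rfl⟩)
      (S27.mem_principal_iff.2 ⟨_, fun h => hγ0 (S.sec_eq_zero_iff.1 h), rfl⟩)
  have hxe : S27.dcl (D - E) + S27.dcl Ξ' = S27.dcl (Zp + Ξ') := by
    rw [hx, S27.dcl_add hZpdeg hΞ'deg]
  rw [hxe, hx]
  -- the facts
  have f1 := hC1 Zp hZpdeg hZpdn
  have f2 : S.I Zp Zp = S.I G G - 2 * S.I G sY + S.I sY sY := by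
    rw [hZp, I_sub_left, I_sub_right, I_sub_right, S.I_comm sY G]
    ring
  have f3 := hC2 γ hγ0 sY hsYdn
  rw [hγ, I_add_left, hsYdeg, hsY, S.hdiv_sumDiv, ← hsY, Int.cast_natCast] at f3
  have f4 := hC3 D Y c hD hDl hYinj hc0 (by rw [← hsY]; exact hY)
  rw [← hsY] at f4
  have f5 : |(S.a : ℝ) * ∑ i, S.htau (Y i) - (2 * S.a + 2 * genusFF Qb F - 2 : ℝ) * ∑ i, S.h 1 (Y i)
      - S.I Ξ sY| ≤ S.jj * CΞ := by
    rw [hsY, I_sumDiv_r, Finset.mul_sum, Finset.mul_sum, ← Finset.sum_sub_distrib,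
      ← Finset.sum_sub_distrib]
    refine (Finset.abs_sum_le_sum_abs _ _).trans ?_
    refine (Finset.sum_le_sum fun i _ => hΞ (Y i)).trans ?_
    simp
  have f6 := hC5 γ₁ hγ₁0 sY hsYdn
  rw [← hA₁, hsYdeg, hsY, S.hdiv_sumDiv, ← hsY, Int.cast_natCast] at f6
  have f7 : S.I Ξ' sY = 2 * genusFF Qb F * S.I A₁ sY - 2 * S.a * S.I E sY + S.I Ξ sY := by
    rw [hΞ', I_add_left, I_sub_left, I_nsmul_l, I_nsmul_l]
    push_cast
    ring
  have f8 : S.I Ξ' Zp = S.I Ξ' G - S.I Ξ' sY := by rw [hZp, I_sub_right]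
  have f9 := hC6 (Zp + Ξ') (by rw [map_add, hZpdeg, hΞ'deg, add_zero]) (by
    have := dn_add_le Zp Ξ'
    omega)
  have f10 : S.I (Zp + Ξ') (Zp + Ξ') = S.I Zp Zp + 2 * S.I Ξ' Zp + S.I Ξ' Ξ' := by
    rw [I_add_left, I_add_right, I_add_right, S.I_comm Zp Ξ']
    ring
  rw [f10] at f9
  -- arithmetic
  have ha0 : (0 : ℝ) < S.a := by
    have : 0 < S.a := by omega
    exact_mod_cast this
  have hg0 : (0 : ℝ) ≤ genusFF Qb F := Nat.cast_nonneg _
  generalize q (S27.dcl Zp) = qx at *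
  generalize q (S27.dcl (Zp + Ξ')) = qxe at *
  generalize S.I Zp Zp = IZZ at *
  generalize S.I G G = IGG at *
  generalize S.I G sY = IGY at *
  generalize S.I sY sY = IYY at *
  generalize S.I E sY = IEY at *
  generalize S.I Ξ sY = IXY at *
  generalize S.I A₁ sY = IAY at *
  generalize S.I Ξ' sY = IPY at *
  generalize S.I Ξ' G = IPG at *
  generalize S.I Ξ' Zp = IPZ at *
  generalize S.I Ξ' Ξ' = IPP at *
  generalize (∑ i, S.h 1 (Y i)) = hY at *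
  generalize (∑ i, S.htau (Y i)) = tY at *
  generalize S.hdiv D = hDv at *
  generalize habs γ = hγv at *
  generalize habs γ₁ = hγ₁v at *
  generalize (S.a : ℝ) = a at *
  generalize (genusFF Qb F : ℝ) = g at *
  generalize (S.jj : ℝ) = J at *
  obtain ⟨f1a, f1b⟩ := abs_le.1 f1
  obtain ⟨f3a, f3b⟩ := abs_le.1 f3
  obtain ⟨f5a, f5b⟩ := abs_le.1 f5
  obtain ⟨f6a, f6b⟩ := abs_le.1 f6
  obtain ⟨f9a, f9b⟩ := abs_le.1 f9
  have e1 : a * (-C1) ≤ a * (qx + IZZ) := mul_le_mul_of_nonneg_left f1a ha0.le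
  have e3 : a * (-C2) ≤ a * (IEY + IGY - (J * hγv + ((2 : ℕ) : ℝ) * hY)) :=
    mul_le_mul_of_nonneg_left f3a ha0.le
  have e4 : a * IYY ≤ a * (6 * hY - tY - 2 / a * (hY + hDv) + C3) :=
    mul_le_mul_of_nonneg_left f4 ha0.le
  have e4' : a * (6 * hY - tY - 2 / a * (hY + hDv) + C3) =
      a * (6 * hY - tY + C3) - 2 * (hY + hDv) := by
    field_simp
    ring
  have e6 : g * (IAY - (J * hγ₁v + ((1 : ℕ) : ℝ) * hY)) ≤ g * C5 :=
    mul_le_mul_of_nonneg_left f6b hg0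
  push_cast at e3 e6
  nlinarith [e1, e3, e4, e4', e6]

end Setup

end Fermat.Agent.MW
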