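import Fermat.Agent.S17.North.Gal
import Fermat.Agent.S17.FC.Main
import Fermat.Agent.S17.Height.Spec

/-!
# S17 route F: Northcott for places with bounded Galois orbit   [WP F-NOR]
-/

set_option autoImplicit false

namespace Fermat.Agent.MW

open AlgebraicCurve

variable {F : Type*} [Field F] [Algebra Qb F] [S27.IsFF Qb F]

namespace Setup

variable (S : Setup F)

/-- the height of `j(P)` is bounded by a multiple of `h_1(P)`.
Proof.  `N ≥ 0` the divisor of poles of `j` (`N P = max 0 (- ord_P j)`), `p` with `2g + deg N ≤ p a`; `(v_β)` a basis of `L(pA - N)`, base point free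
(`isBPF_L`), `u_β := j v_β ∈ V p`, `v_β ∈ V p`.  For `P` not a pole of `j` (`N P = 0`): `ev p P u_β = val_P j * ev p P v_β` (`S27.val` is multiplicative on
regular elements) and `(ev p P v_β)_β ≠ 0`.  So the vector `w(P) = (ev p P u_β, ev p P v_β)_β` is `(j(P),1) ⊗ (ev p P v_β)_β`; `habs_tensor`, `habs_nonneg`:
`habs ![j(P),1] ≤ habs w(P)`.  `w(P) = M · x p P` for the fixed matrix `M` of coordinates (`ev_eq_sum_coord`): `habs_mulVec_le`; `h_eq_mul p`. -/
theorem exists_habs_val_le (j : F) : ∃ (p : ℕ) (C : ℝ), ∀ P : Place Qb F, P.adicValuation j ≤ 1 →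
    habs ![S27.val P j, 1] ≤ p * S.h 1 P + C := by
  sorry

/-- **Northcott.**  (The poles of `j` are finitely many.  For the other `P`: `habs ![j(P),1] ≤ p B + C`, degree of `j(P)` `≤ d`
(`natDegree_minpoly_val_le`, `finite_orbit`), `habs_northcott`: finitely many values `j(P)`; `finite_fibre`.) -/
theorem northcott_orbit (ρ : GQ →* SemilinearAut Qb F)
    (hρ : ∀ σ, SemilinearAut.baseAut (ρ σ) = σ.toRingEquiv)
    {j : F} (hj : j ∉ Set.range (algebraMap Qb F)) (hjρ : ∀ σ, ρ σ • j = j) (d : ℕ) (B : ℝ) :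
    {P : Place Qb F | (Set.range fun σ : GQ => ρ σ • P).ncard ≤ d ∧ S.h 1 P ≤ B}.Finite := by
  sorry

end Setup

end Fermat.Agent.MW
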