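import Fermat.Agent.S17.North.NS
import Fermat.Agent.S17.North.Nor

/-!
# S17 route F: the height half of Mordell-Weil   [final wiring, no sorry of its own]
-/

set_option autoImplicit false

namespace Fermat.Agent.MW

open AlgebraicCurve

/-- same statement as `S17.exists_quadratic_height` (HeightSpec.lean). -/
theorem exists_quadratic_height_F {F : Type} [Field F] [Algebra Qb F] [S27.IsFF Qb F]
    (ρ : GQ →* SemilinearAut Qb F) (hρ : ∀ σ, SemilinearAut.baseAut (ρ σ) = σ.toRingEquiv)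
    (j : F) (hj : j ∉ Set.range (algebraMap Qb F)) (hjρ : ∀ σ, ρ σ • j = j) :
    ∃ q : Pic0 Qb F → ℝ, (∀ x, 0 ≤ q x) ∧
      (∃ C : ℝ, ∀ x y, |q (x + y) + q (x - y) - 2 * (q x + q y)| ≤ C) ∧
      ∀ B : ℝ, {x : Pic0 Qb F | (∀ σ, ρ σ • x = x) ∧ q x ≤ B}.Finite := by
  obtain ⟨P₀⟩ := RR.IsFF1.nonempty_place (K := Qb) (F := F)
  let S : Setup F := ⟨P₀, 2 * genusFF Qb F + 2, le_rfl⟩
  refine S17.Quad.exists_quadratic_height_of_estimates ρ S.hD S.hD_comm ?_ (S.h 1)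
    (fun P => habs_nonneg _) (fun P => finite_orbit ρ hρ hj hjρ P)
    (fun d B => S.northcott_orbit ρ hρ hj hjρ d B) (fun E hE hdeg => S.NS E hE hdeg)
  obtain ⟨C, hC⟩ := S.QB (6 * genusFF Qb F)
  refine ⟨C, fun A hA B hB hnA hnB => ?_⟩
  obtain ⟨f, hf0, rfl⟩ := S27.mem_principal_iff.1 hA
  exact hC f hf0 B hB hnA (le_trans hnB (Nat.mul_le_mul_right _ (by norm_num)))

end Fermat.Agent.MW
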