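import Mathlib

/-!
# S17 route F: an abstract positivity lemma for quasi-quadratic functions   [WP F-POS]   (Mathlib only)

`q : J → ℝ` satisfies the parallelogram law up to `O(1)`; `H ⊆ J` finite, `κ > 1`; for every `x` there is `η ∈ H` with
`q (x + η) - C ≤ κ q x`.  Then `q` is bounded below.

Proof.  `u : ℕ → ℝ` with `|u (n+2) - 2 u (n+1) + u n| ≤ c` satisfies `|u n - u 0 - n (u 1 - u 0)| ≤ c n²`.  Apply this to
`u n = q (n x) - n² q x` and to `u n = q (n x + η) - q (n x)`:
`q (n x) ≤ n² q x + K n²`, `q (n x + η) - q (n x) ≥ n (q (x + η) - q x) - K' n²` (`K'` depends on `H` only).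
The hypothesis at `n x`: `(κ - 1) q (n x) ≥ q (n x + η_n) - q (n x) - C`.  Divide by `n²`, `n → ∞`.
-/

set_option autoImplicit false

namespace Fermat.Agent.MW

/-- a sequence with bounded second differences is affine up to `c n²`. -/
theorem abs_sub_affine_le (u : ℕ → ℝ) (c : ℝ) (hu : ∀ n, |u (n + 2) - 2 * u (n + 1) + u n| ≤ c)
    (n : ℕ) : |u n - u 0 - n * (u 1 - u 0)| ≤ c * (n : ℝ) ^ 2 := by
  have hc : 0 ≤ c := le_trans (abs_nonneg _) (hu 0)
  have hd : ∀ n : ℕ, |(u (n + 1) - u n) - (u 1 - u 0)| ≤ c * n := by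
    intro n
    induction n with
    | zero => simp
    | succ n ih =>
      have h1 := hu n
      have e : (u (n + 1 + 1) - u (n + 1)) - (u 1 - u 0) =
          (u (n + 2) - 2 * u (n + 1) + u n) + ((u (n + 1) - u n) - (u 1 - u 0)) := by ring
      rw [e]
      refine (abs_add_le _ _).trans ?_
      push_cast
      linarith
  induction n with
  | zero => simp
  | succ n ih =>
    have e : u (n + 1) - u 0 - ((n + 1 : ℕ) : ℝ) * (u 1 - u 0) =
        (u n - u 0 - n * (u 1 - u 0)) + ((u (n + 1) - u n) - (u 1 - u 0)) := by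
      push_cast; ring
    rw [e]
    refine (abs_add_le _ _).trans ?_
    have h1 := hd n
    have hn : (0 : ℝ) ≤ n := Nat.cast_nonneg n
    push_cast
    nlinarith

theorem bddBelow_of_quasi {J : Type*} [AddCommGroup J] (q : J → ℝ) (C₀ : ℝ)
    (hq : ∀ x y, |q (x + y) + q (x - y) - 2 * (q x + q y)| ≤ C₀)
    (H : Finset J) (κ C : ℝ) (hκ : 1 < κ) (h : ∀ x, ∃ η ∈ H, q (x + η) - C ≤ κ * q x) :
    ∃ C' : ℝ, ∀ x, -C' ≤ q x := by
  have hC₀ : 0 ≤ C₀ := le_trans (abs_nonneg _) (hq 0 0)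
  refine ⟨(κ + 1) * C₀ / (κ - 1), fun x => ?_⟩
  have hκ1 : 0 < κ - 1 := by linarith
  -- step 2
  have h2 : ∀ n : ℕ, q (n • x) ≤ (n : ℝ) ^ 2 * q x + |q 0| * (1 + n) + C₀ * (n : ℝ) ^ 2 := by
    intro n
    have := abs_sub_affine_le (fun n : ℕ => q (n • x) - (n : ℝ) ^ 2 * q x) C₀ (fun n => by
      have e1 : (n + 1) • x + x = (n + 2) • x := by
        rw [add_smul, add_smul, one_smul, two_smul]; abel
      have e2 : (n + 1) • x - x = n • x := by
        rw [add_smul, one_smul]; abel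
      have := hq ((n + 1) • x) x
      rw [e1, e2] at this
      have e : (q ((n + 2) • x) - ((n + 2 : ℕ) : ℝ) ^ 2 * q x) -
          2 * (q ((n + 1) • x) - ((n + 1 : ℕ) : ℝ) ^ 2 * q x) + (q (n • x) - (n : ℝ) ^ 2 * q x) =
          q ((n + 2) • x) + q (n • x) - 2 * (q ((n + 1) • x) + q x) := by
        push_cast; ring
      simpa only [e] using this) n
    simp only [zero_smul, one_smul, Nat.cast_zero, Nat.cast_one] at this
    have h3 := (abs_le.1 this).2
    have hn : (0 : ℝ) ≤ n := Nat.cast_nonneg n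
    have h4 : q 0 ≤ |q 0| := le_abs_self _
    have h5 : -q 0 ≤ |q 0| := neg_le_abs _
    nlinarith
  -- step 3
  have h3 : ∀ (η : J) (n : ℕ), (q η - q 0) + n * ((q (x + η) - q x) - (q η - q 0)) -
      2 * C₀ * (n : ℝ) ^ 2 ≤ q (n • x + η) - q (n • x) := by
    intro η n
    have := abs_sub_affine_le (fun n : ℕ => q (n • x + η) - q (n • x)) (2 * C₀) (fun n => by
      have e1 : (n + 1) • x + x = (n + 2) • x := by
        rw [add_smul, add_smul, one_smul, two_smul]; abel
      have e2 : (n + 1) • x - x = n • x := by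
        rw [add_smul, one_smul]; abel
      have e1' : ((n + 1) • x + η) + x = (n + 2) • x + η := by
        rw [← e1]; abel
      have e2' : ((n + 1) • x + η) - x = n • x + η := by
        rw [← e2]; abel
      have a1 := hq ((n + 1) • x) x
      have a2 := hq ((n + 1) • x + η) x
      rw [e1, e2] at a1
      rw [e1', e2'] at a2
      have e : (q ((n + 2) • x + η) - q ((n + 2) • x)) -
          2 * (q ((n + 1) • x + η) - q ((n + 1) • x)) + (q (n • x + η) - q (n • x)) =
          (q ((n + 2) • x + η) + q (n • x + η) - 2 * (q ((n + 1) • x + η) + q x)) -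
          (q ((n + 2) • x) + q (n • x) - 2 * (q ((n + 1) • x) + q x)) := by ring
      simp only [e]
      refine (abs_sub _ _).trans ?_
      linarith) n
    simp only [zero_smul, one_smul, zero_add] at this
    have h4 := (abs_le.1 this).1
    linarith
  by_contra hcon
  push Not at hcon
  -- `δ > 0`
  set δ : ℝ := -((κ - 1) * q x + (κ + 1) * C₀) with hδ
  have hδ0 : 0 < δ := by
    have : q x * (κ - 1) < -((κ + 1) * C₀) := by
      rw [← lt_div_iff₀ hκ1, neg_div]; exact hcon
    rw [hδ]; linarith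
  set M₀ : ℝ := ∑ η ∈ H, |q η - q 0| with hM₀
  set M₁ : ℝ := ∑ η ∈ H, |q (x + η) - q x| with hM₁
  have hM₀0 : 0 ≤ M₀ := Finset.sum_nonneg fun _ _ => abs_nonneg _
  have hM₁0 : 0 ≤ M₁ := Finset.sum_nonneg fun _ _ => abs_nonneg _
  set A : ℝ := (κ - 1) * |q 0| + M₀ + |C| with hA
  set B : ℝ := (κ - 1) * |q 0| + M₁ + M₀ with hB
  have hA0 : 0 ≤ A := by positivity
  have hB0 : 0 ≤ B := by positivity
  have key : ∀ n : ℕ, δ * (n : ℝ) ^ 2 ≤ A + B * n := by
    intro n
    obtain ⟨η, hη, hh⟩ := h (n • x)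
    have a1 := h2 n
    have a2 := h3 η n
    have b0 : |q η - q 0| ≤ M₀ :=
      Finset.single_le_sum (f := fun η => |q η - q 0|) (fun _ _ => abs_nonneg _) hη
    have b1 : |q (x + η) - q x| ≤ M₁ :=
      Finset.single_le_sum (f := fun η => |q (x + η) - q x|) (fun _ _ => abs_nonneg _) hη
    have hn : (0 : ℝ) ≤ n := Nat.cast_nonneg n
    have c0 := abs_le.1 b0
    have c1 := abs_le.1 b1
    have c2 : C ≤ |C| := le_abs_self _
    have d1 : (κ - 1) * q (n • x) ≤
        (κ - 1) * ((n : ℝ) ^ 2 * q x + |q 0| * (1 + n) + C₀ * (n : ℝ) ^ 2) :=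
      mul_le_mul_of_nonneg_left a1 hκ1.le
    have d2 : -(M₁ + M₀) * n ≤ n * ((q (x + η) - q x) - (q η - q 0)) := by
      nlinarith [c0.1, c0.2, c1.1, c1.2]
    rw [hδ, hA, hB]
    nlinarith [c0.1, c0.2]
  obtain ⟨n, hn⟩ := exists_nat_gt ((A + B) / δ + 1)
  have hn1 : (1 : ℝ) ≤ n := by
    have : 0 ≤ (A + B) / δ := by positivity
    linarith
  have hn2 : A + B < δ * n := by
    have : (A + B) / δ < n := by linarith
    rw [div_lt_iff₀ hδ0] at this
    linarith
  have := key n
  nlinarith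

end Fermat.Agent.MW
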