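import Fermat.Agent.S17.North.Half
import Fermat.Agent.S17.North.Pos
import Fermat.Agent.S17.Quad.Main

/-!
# S17 route F: positivity of `q` and the estimate (NS)   [WP F-NS]
-/

set_option autoImplicit false

namespace Fermat.Agent.MW

open AlgebraicCurve

variable {F : Type*} [Field F] [Algebra Qb F] [S27.IsFF Qb F]

namespace Setup

variable (S : Setup F)

/-- `q` is bounded below.  Proof: `2g - 1` distinct places `R` (`Infinite (Place Qb F)`); for each `T` with `|T| = g` take `η_T`, `C_T` from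
`half` for `E = Quad.sumT R T`; `H := {η_T}`, `C := max C_T`; `Quad.exists_nonspecial_rep R hR x` gives `x = dcl (D - sumT R T)`, and
`hdiv D ≥ 0` (`hdiv_nonneg`).  `bddBelow_of_quasi` with `κ = 2a + 1`. -/
theorem q_bddBelow {q : Pic0 Qb F → ℝ} (hq : S.IsQ q)
    (hpar : ∃ C : ℝ, ∀ x y, |q (x + y) + q (x - y) - 2 * (q x + q y)| ≤ C) :
    ∃ C : ℝ, ∀ x, -C ≤ q x := by
  sorry

/-- **(NS)**, in the form required by `Quad.exists_quadratic_height_of_estimates`.
Proof: `q` from `exists_isQ`; `half` and `q_bddBelow`: `(2a+1) q x ≥ 4 hdiv D - C - C'`; `IsQ` with `n = 2g`: `q x ≤ - I(D-E,D-E) + C''`.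
`ε = 4/(2a+1)`.  (`Quad.pair S.hD = S.I`, `RR.ell D = finrank (L D)` and the sum is `S.hdiv D`, all by `rfl`.) -/
theorem NS (E : Divisor Qb F) (hE : 0 ≤ E) (hdeg : Divisor.degree E = genusFF Qb F) :
    ∃ C ε : ℝ, 0 < ε ∧ ∀ D : Divisor Qb F, 0 ≤ D → Divisor.degree D = genusFF Qb F →
      RR.ell D = 1 → ε * (D.sum fun P a => (a : ℝ) * S.h 1 P) - C ≤
        - S17.Quad.pair S.hD (D - E) (D - E) := by
  sorry

end Setup

end Fermat.Agent.MW
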