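import Fermat.Agent.S17.Apps.QB
import Fermat.Agent.S17.Curve.RRMove
import Fermat.Agent.S17.Quad.Abstract

/-!
# S17 route F: the quasi-quadratic function `q`   [WP F-Q]

Instantiate `S17.Quad.exists_quasi_quadratic` with `X = Place`, `Bt = S.hD` (`Quad.pair S.hD = S.I`, `Quad.nrm = dnorm` by `rfl`),
`D0 = Divisor.degZero`, `Prin = Divisor.principal`, `cl = Pic0.mk` (`S27.dcl`), `n₀ = 4 g` (`hrep` from `exists_moved x ∅`), `hQB` from
`S.QB (12 g)` (`S27.mem_principal_iff`), `hsymm = S.hD_comm`.   This gives `|q (cl Z) + I Z Z| ≤ C` for `dnorm Z ≤ 8 g`.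
For `Z` of arbitrary size `≤ n` : take `Z₀` with `dnorm Z₀ ≤ 4 g`, `dcl Z₀ = dcl Z`; `Z - Z₀ = div f` of size `≤ n + 4 g`, and
`I Z Z = I Z₀ Z₀ + I (div f) Z + I Z₀ (div f)` (`I_add_left/right`, `I_comm`), both error terms bounded by `S.QB (n + 4 g)`.
-/

set_option autoImplicit false

namespace Fermat.Agent.MW

open AlgebraicCurve

variable {F : Type*} [Field F] [Algebra Qb F] [S27.IsFF Qb F]

namespace Setup

variable (S : Setup F)

/-- `q (class of Z) = - I(Z,Z) + O(1)` for representatives of bounded size. -/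
def IsQ (q : Pic0 Qb F → ℝ) : Prop :=
  ∀ n : ℕ, ∃ C : ℝ, ∀ Z : Divisor Qb F, Divisor.degree Z = 0 → dnorm Z ≤ n →
    |q (S27.dcl Z) + S.I Z Z| ≤ C

theorem exists_isQ : ∃ q : Pic0 Qb F → ℝ, S.IsQ q ∧
    ∃ C : ℝ, ∀ x y, |q (x + y) + q (x - y) - 2 * (q x + q y)| ≤ C := by
  sorry

end Setup

end Fermat.Agent.MW
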